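import Mathlib
import Fermat.Prelude.Def_ModularCurve_ReductionModL
import Fermat.Prelude.Def_FLTPrelim_Ramification
import Fermat.Agent.S28.Defs
import Fermat.Agent.S18.H516.GaussBC
import Fermat.Agent.S18.H516.GaussDecomp
import Fermat.Agent.S18.H516.GaussRing
import Fermat.Agent.S18.H516.CoreRes
import Fermat.Agent.A2.H708.GaussInf

/-!
# A2 / MOD leaf L7 (helper516): the Fricke involution preserves the Gauss valuation at good level

Generic core.  `L ⊇ ℚ` a field, `A` a valuation subring of `L`, `π : A → k` its residue map,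
`F = L(j_d : d ∣ N) ⊆ L((t))`, `ℓ = char k ∤ N` (S28 `CoreData N k`).  If `W : F ≃ₐ[L] F` maps every
generator `j_d` to a generator `j_{d'}`, then `W` maps the Gauss valuation ring into itself.

Proof: explicit normal form `f · G(j) = c · ∑ Hᵢ(j) yᵢ` (`G`, `∑ Hᵢ yᵢ` primitive, `yᵢ ∈ ℤ[j_d]`),
`c ∈ A` iff `f` Gauss-integral; apply `W`; `G(W j)` is again a Gauss unit (`W j = t^{-d'} + …`).
-/

set_option autoImplicit false
set_option linter.unusedSectionVars false
set_option synthInstance.maxHeartbeats 400000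
set_option maxHeartbeats 1600000

noncomputable section

namespace Fermat.Agent.A2.Mod.H516

open ModularCurve IntermediateField Polynomial Fermat.Agent.S28 Fermat.Agent.S18.H516

section Explicit

variable {L : Type*} [Field L] [Algebra ℚ L] (A : ValuationSubring L)
variable {k : Type} [Field k] (π : A →+* k) (N : ℕ) [NeZero N]

/-- Explicit Gauss decomposition: `f · G(j) = c · ∑ Hᵢ(j) yᵢ`. -/
theorem exists_explicit_decomp (core : CoreData N k) {f : LaurentSeries L}
    (hf : f ∈ laurentBaseChange L (modularFunctionFieldFull N)) (hf0 : f ≠ 0) :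
    ∃ (c : L) (n : ℕ) (y : Fin n → LaurentSeries ℤ) (G : A[X]) (H : Fin n → A[X]),
      c ≠ 0 ∧ (∀ i, y i ∈ Subring.closure (intDivisorExpansions N)) ∧ G.map π ≠ 0 ∧
      coeffMap π (∑ i, evJ (H i) * coeffMap (Int.castRingHom A) (y i)) ≠ 0 ∧
      f * coeffMap A.subtype (evJ G) =
        HahnSeries.C c *
          coeffMap A.subtype (∑ i, evJ (H i) * coeffMap (Int.castRingHom A) (y i)) := by
  classical
  obtain ⟨n, y, hy, hspan, hli⟩ := core.exists_basis
  have hS : SpansQ N y := ⟨hy, hspan⟩
  have hfs := (mem_baseChange_iff_mem_spanL L hS).mp hf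
  obtain ⟨G, H, hG, hGH⟩ := exists_cleared L _ hfs
  have hGne : evJ G ≠ 0 := fun h => hG ((evJ_eq_zero_iff L).mp h)
  have hH : ∃ i, H i ≠ 0 := by
    by_contra hcon
    push Not at hcon
    have : evJ G * f = 0 := by
      rw [hGH]
      exact Finset.sum_eq_zero fun i _ => by rw [hcon i, evJ_zero, zero_mul]
    rcases mul_eq_zero.mp this with h | h
    · exact hGne h
    · exact hf0 h
  obtain ⟨g0, G', hg0, hG', i1, m1, hG1⟩ := exists_scale A (fun _ : Fin 1 => G) ⟨0, hG⟩
  obtain rfl : i1 = 0 := Subsingleton.elim _ _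
  obtain ⟨h0, H', hh0, hH', i0, m0, hH1⟩ := exists_scale A H hH
  have hU₂L : coeffMap A.subtype (evJ (G' 0)) = HahnSeries.C g0⁻¹ * evJ G := by
    rw [coeffMap_evJ, hG' 0, evJ_mul, evJ_C]
  have hU₁L : coeffMap A.subtype (∑ i, evJ (H' i) * coeffMap (Int.castRingHom A) (y i)) =
      HahnSeries.C h0⁻¹ * ∑ i, evJ (H i) * coeffMap (Int.castRingHom L) (y i) := by
    rw [map_sum, Finset.mul_sum]
    refine Finset.sum_congr rfl fun i _ => ?_
    rw [map_mul, coeffMap_evJ, hH' i, evJ_mul, evJ_C, coeffMap_coeffMap,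
      show (A.subtype.comp (Int.castRingHom A)) = Int.castRingHom L from RingHom.ext_int _ _]
    ring
  have hU₁k : coeffMap π (∑ i, evJ (H' i) * coeffMap (Int.castRingHom A) (y i)) =
      ∑ i, evJ ((H' i).map π) * coeffMap (Int.castRingHom k) (y i) := by
    rw [map_sum]
    refine Finset.sum_congr rfl fun i _ => ?_
    rw [map_mul, coeffMap_evJ, coeffMap_coeffMap,
      show (π.comp (Int.castRingHom A)) = Int.castRingHom k from RingHom.ext_int _ _]
  refine ⟨h0 * g0⁻¹, n, y, G' 0, H', mul_ne_zero hh0 (inv_ne_zero hg0), hy, ?_, ?_, ?_⟩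
  · intro h2
    have h3 := congrArg (fun P : k[X] => P.coeff m1) h2
    simp only [Polynomial.coeff_map, Polynomial.coeff_zero, hG1, map_one] at h3
    exact one_ne_zero h3
  · rw [hU₁k]
    intro h0'
    have hli' := Fintype.linearIndependent_iff.mp hli
      (fun i => (⟨evJ ((H' i).map π), evJ_mem_jField k _⟩ : jField k)) h0' i0
    have h1 : evJ ((H' i0).map π) = 0 := congrArg Subtype.val hli'
    have h2 := (evJ_eq_zero_iff k).mp h1
    have h3 := congrArg (fun P : k[X] => P.coeff m0) h2
    simp only [Polynomial.coeff_map, Polynomial.coeff_zero, hH1, map_one] at h3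
    exact one_ne_zero h3
  · rw [hU₂L, hU₁L, ← hGH, map_mul]
    have hC : HahnSeries.C (Γ := ℤ) h0 * HahnSeries.C h0⁻¹ = 1 := by
      rw [← map_mul, mul_inv_cancel₀ hh0, map_one]
    calc f * (HahnSeries.C g0⁻¹ * evJ G)
        = (HahnSeries.C (Γ := ℤ) h0 * HahnSeries.C h0⁻¹) * (HahnSeries.C g0⁻¹ * (evJ G * f)) := by
          rw [hC]; ring
      _ = HahnSeries.C h0 * HahnSeries.C g0⁻¹ * (HahnSeries.C h0⁻¹ * (evJ G * f)) := by ring

variable {A π N}

/-- If `f` is Gauss-integral and `f · U₂ = c · U₁` with `U₁, U₂` primitive, then `c ∈ A`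
(`π` the residue map: `π a = 0` for every non-unit `a`). -/
theorem const_mem_of_decomp (hπ : ∀ a : A, ¬ IsUnit a → π a = 0) {f : LaurentSeries L}
    (hf : f ∈ gaussSet A π N) {c : L} {U₁ U₂ : LaurentSeries A} (h₁ : IsGI A N U₁)
    (h₂ : IsGI A N U₂) (h₁k : coeffMap π U₁ ≠ 0)
    (heq : f * coeffMap A.subtype U₂ = HahnSeries.C c * coeffMap A.subtype U₁) : c ∈ A := by
  have h10 : coeffMap A.subtype U₁ ≠ 0 := by
    intro h
    have : U₁ = 0 := incl_injective A (by rw [h, map_zero])
    exact h₁k (by rw [this, map_zero])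
  have hC : HahnSeries.C (Γ := ℤ) c ∈ gaussSet A π N := by
    have h3 : HahnSeries.C (Γ := ℤ) c =
        f * (coeffMap A.subtype U₂ * (coeffMap A.subtype U₁)⁻¹) := by
      rw [← mul_assoc, heq, mul_assoc, mul_inv_cancel₀ h10, mul_one]
    rw [h3]
    exact mul_mem_gaussSet hf (div_mem_gaussSet h₂ h₁ h₁k)
  by_contra hcA
  have hcinv : c⁻¹ ∈ A := (A.mem_or_inv_mem c).resolve_left hcA
  have hc0 : c ≠ 0 := fun h => hcA (h ▸ A.zero_mem)
  have hnu : ¬ IsUnit (⟨c⁻¹, hcinv⟩ : A) := by
    rintro ⟨u, hu⟩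
    apply hcA
    have h4 : ((u : A) : L) * (((u⁻¹ : Aˣ) : A) : L) = 1 := congrArg Subtype.val u.mul_inv
    rw [hu] at h4
    have h5 : (((u⁻¹ : Aˣ) : A) : L) = c := by
      have h6 : c⁻¹ * (((u⁻¹ : Aˣ) : A) : L) = 1 := h4
      field_simp at h6
      exact h6
    rw [← h5]
    exact (((u⁻¹ : Aˣ) : A)).2
  have := C_inv_not_mem_gaussSet (A := A) (π := π) (N := N) hcinv (inv_ne_zero hc0)
    (hπ _ hnu)
  apply this
  rw [← map_inv₀, inv_inv]
  exact hC

end Explicit

section Fricke

variable {L : Type*} [Field L] [Algebra ℚ L] (A : ValuationSubring L)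
variable {k : Type} [Field k] (π : A →+* k) (N : ℕ) [NeZero N]

/-- The generator `j_d` of `F = L(j_d : d ∣ N)`. -/
def jF (d : ℕ) [NeZero d] (hd : d ∣ N) : laurentBaseChange L (modularFunctionFieldFull N) :=
  ⟨coeffEmb L (qExpand ℚ d jq), coeffEmb_mem_laurentBaseChange L (jqd_mem_full N hd)⟩

theorem coe_jF (d : ℕ) [NeZero d] (hd : d ∣ N) :
    ((jF (L := L) N d hd : laurentBaseChange L (modularFunctionFieldFull N)) :
      LaurentSeries L) = coeffMap (Int.castRingHom L) (qExpand ℤ d (jqModC ℤ)) := by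
  show coeffEmb L (qExpand ℚ d jq) = _
  rw [coeffEmb_qExpand_jq, coeffMap_qExpand, coeffMap_jqModC]

theorem castL_mem {y : LaurentSeries ℤ} (hy : y ∈ Subring.closure (intDivisorExpansions N)) :
    coeffMap (Int.castRingHom L) y ∈ laurentBaseChange L (modularFunctionFieldFull N) := by
  rw [baseChange_eq_fullC]
  exact coeffMap_mem_of_mem_closure N hy

variable {N} in
/-- A generator-permuting automorphism maps `ℤ[j_d : d ∣ N]` to itself. -/
theorem exists_closure_of_fricke
    (W : laurentBaseChange L (modularFunctionFieldFull N) ≃ₐ[L]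
      laurentBaseChange L (modularFunctionFieldFull N))
    (hW : ∀ (d : ℕ) [NeZero d] (hd : d ∣ N), ∃ (d' : ℕ) (_ : NeZero d') (hd' : d' ∣ N),
      W (jF N d hd) = jF N d' hd')
    {y : LaurentSeries ℤ} (hy : y ∈ Subring.closure (intDivisorExpansions N)) :
    ∀ z : laurentBaseChange L (modularFunctionFieldFull N),
      (z : LaurentSeries L) = coeffMap (Int.castRingHom L) y →
      ∃ y' ∈ Subring.closure (intDivisorExpansions N),
        ((W z : laurentBaseChange L (modularFunctionFieldFull N)) : LaurentSeries L) =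
          coeffMap (Int.castRingHom L) y' := by
  induction hy using Subring.closure_induction with
  | mem x hx =>
    obtain ⟨d, hd, hdN, rfl⟩ := hx
    intro z hz
    obtain ⟨d', hd', hd'N, hWd⟩ := hW d hdN
    have hzj : z = jF N d hdN := Subtype.ext (by rw [hz, coe_jF])
    refine ⟨qExpand ℤ d' (jqModC ℤ), Subring.subset_closure ⟨d', hd', hd'N, rfl⟩, ?_⟩
    rw [hzj, hWd, coe_jF]
  | zero =>
    intro z hz
    have hz0 : z = 0 := Subtype.ext (by rw [hz, map_zero]; rfl)
    exact ⟨0, zero_mem _, by rw [hz0, map_zero, map_zero]; rfl⟩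
  | one =>
    intro z hz
    have hz1 : z = 1 := Subtype.ext (by rw [hz, map_one]; rfl)
    exact ⟨1, one_mem _, by rw [hz1, map_one, map_one]; rfl⟩
  | add a b ha hb iha ihb =>
    intro z hz
    obtain ⟨a', ha', hWa⟩ := iha ⟨_, castL_mem N ha⟩ rfl
    obtain ⟨b', hb', hWb⟩ := ihb ⟨_, castL_mem N hb⟩ rfl
    have hzab : z = ⟨_, castL_mem (L := L) N ha⟩ + ⟨_, castL_mem (L := L) N hb⟩ :=
      Subtype.ext (by rw [hz, map_add]; rfl)
    refine ⟨a' + b', add_mem ha' hb', ?_⟩
    rw [hzab, map_add W, map_add (coeffMap (Int.castRingHom L)), ← hWa, ← hWb]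
    rfl
  | neg a ha iha =>
    intro z hz
    obtain ⟨a', ha', hWa⟩ := iha ⟨_, castL_mem N ha⟩ rfl
    have hza : z = -⟨_, castL_mem (L := L) N ha⟩ :=
      Subtype.ext (by rw [hz, map_neg]; rfl)
    refine ⟨-a', neg_mem ha', ?_⟩
    rw [hza, map_neg W, map_neg (coeffMap (Int.castRingHom L)), ← hWa]
    rfl
  | mul a b ha hb iha ihb =>
    intro z hz
    obtain ⟨a', ha', hWa⟩ := iha ⟨_, castL_mem N ha⟩ rfl
    obtain ⟨b', hb', hWb⟩ := ihb ⟨_, castL_mem N hb⟩ rfl
    have hzab : z = ⟨_, castL_mem (L := L) N ha⟩ * ⟨_, castL_mem (L := L) N hb⟩ :=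
      Subtype.ext (by rw [hz, map_mul]; rfl)
    refine ⟨a' * b', mul_mem ha' hb', ?_⟩
    rw [hzab, map_mul W, map_mul (coeffMap (Int.castRingHom L)), ← hWa, ← hWb]
    rfl

/-- Evaluation of a polynomial over `A` at an element of `F`. -/
def evF (x : laurentBaseChange L (modularFunctionFieldFull N)) (P : A[X]) :
    laurentBaseChange L (modularFunctionFieldFull N) :=
  P.eval₂ ((algebraMap L (laurentBaseChange L (modularFunctionFieldFull N))).comp A.subtype) x

variable {A N} in
theorem coe_evF {x : laurentBaseChange L (modularFunctionFieldFull N)} {X : LaurentSeries A}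
    (hx : (x : LaurentSeries L) = coeffMap A.subtype X) (P : A[X]) :
    ((evF A N x P : laurentBaseChange L (modularFunctionFieldFull N)) : LaurentSeries L) =
      coeffMap A.subtype (P.eval₂ (HahnSeries.C (Γ := ℤ)) X) := by
  have h1 := Polynomial.hom_eval₂ P
    ((algebraMap L (laurentBaseChange L (modularFunctionFieldFull N))).comp A.subtype)
    (laurentBaseChange L (modularFunctionFieldFull N)).val.toRingHom x
  have h2 := Polynomial.hom_eval₂ P (HahnSeries.C (Γ := ℤ) (R := A)) (coeffMap A.subtype) X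
  have hc : ((laurentBaseChange L (modularFunctionFieldFull N)).val.toRingHom).comp
      ((algebraMap L (laurentBaseChange L (modularFunctionFieldFull N))).comp A.subtype) =
      (coeffMap A.subtype).comp (HahnSeries.C (Γ := ℤ) (R := A)) := by
    ext a : 1
    show algebraMap L (LaurentSeries L) (a : L) = coeffMap A.subtype (HahnSeries.C a)
    rw [coeffMap_C, algebraMap_eq_C]
    rfl
  rw [h2, ← hc, ← hx]
  exact h1

variable {A N} in
theorem map_evF
    (W : laurentBaseChange L (modularFunctionFieldFull N) ≃ₐ[L]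
      laurentBaseChange L (modularFunctionFieldFull N))
    (x : laurentBaseChange L (modularFunctionFieldFull N)) (P : A[X]) :
    W (evF A N x P) = evF A N (W x) P := by
  have h1 := Polynomial.hom_eval₂ P
    ((algebraMap L (laurentBaseChange L (modularFunctionFieldFull N))).comp A.subtype)
    (W : laurentBaseChange L (modularFunctionFieldFull N) →+*
      laurentBaseChange L (modularFunctionFieldFull N)) x
  have hc : (W : laurentBaseChange L (modularFunctionFieldFull N) →+*
      laurentBaseChange L (modularFunctionFieldFull N)).comp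
      ((algebraMap L (laurentBaseChange L (modularFunctionFieldFull N))).comp A.subtype) =
      (algebraMap L (laurentBaseChange L (modularFunctionFieldFull N))).comp A.subtype := by
    ext a : 1
    exact W.commutes (a : L)
  rw [hc] at h1
  exact h1

end Fricke

section Main

variable {L : Type*} [Field L] [Algebra ℚ L] {A : ValuationSubring L}
variable {k : Type} [Field k] {π : A →+* k} {N : ℕ} [NeZero N]

theorem isGI_evJ (P : A[X]) : IsGI A N (evJ P) := by
  unfold IsGI
  rw [coeffMap_evJ]
  exact jField_le_baseChange L (evJ_mem_jField L _)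

theorem isGI_castA {y : LaurentSeries ℤ} (hy : y ∈ Subring.closure (intDivisorExpansions N)) :
    IsGI A N (coeffMap (Int.castRingHom A) y) := by
  unfold IsGI
  rw [coeffMap_coeffMap,
    show (A.subtype.comp (Int.castRingHom A)) = Int.castRingHom L from RingHom.ext_int _ _]
  exact castL_mem N hy

theorem incl_castA (y : LaurentSeries ℤ) :
    coeffMap A.subtype (coeffMap (Int.castRingHom A) y) = coeffMap (Int.castRingHom L) y := by
  rw [coeffMap_coeffMap,
    show (A.subtype.comp (Int.castRingHom A)) = Int.castRingHom L from RingHom.ext_int _ _]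

/-- **L7, generic core.**  A generator-permuting `L`-automorphism of `F = L(j_d : d ∣ N)`
maps the Gauss valuation ring into itself (good reduction: `CoreData N k`). -/
theorem fricke_stable_generic (core : CoreData N k) (hπ : ∀ a : A, ¬ IsUnit a → π a = 0)
    (W : laurentBaseChange L (modularFunctionFieldFull N) ≃ₐ[L]
      laurentBaseChange L (modularFunctionFieldFull N))
    (hW : ∀ (d : ℕ) [NeZero d] (hd : d ∣ N), ∃ (d' : ℕ) (_ : NeZero d') (hd' : d' ∣ N),
      W (jF N d hd) = jF N d' hd')
    (f : laurentBaseChange L (modularFunctionFieldFull N))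
    (hf : (f : LaurentSeries L) ∈ gaussSet A π N) :
    ((W f : laurentBaseChange L (modularFunctionFieldFull N)) : LaurentSeries L) ∈
      gaussSet A π N := by
  classical
  by_cases hf0 : f = 0
  · rw [hf0, map_zero]
    exact zero_mem_gaussSet
  have hf0' : (f : LaurentSeries L) ≠ 0 := fun h => hf0 (Subtype.ext h)
  obtain ⟨c, n, y, G, H, hc, hy, hG, hU₁k, heq⟩ := exists_explicit_decomp A π N core f.2 hf0'
  have hU₁ : IsGI A N (∑ i, evJ (H i) * coeffMap (Int.castRingHom A) (y i)) := by
    unfold IsGI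
    rw [map_sum]
    exact sum_mem fun i _ => by
      rw [map_mul]
      exact mul_mem (isGI_evJ (H i)) (isGI_castA (hy i))
  have hcA : c ∈ A := const_mem_of_decomp hπ hf hU₁ (isGI_evJ G) hU₁k heq
  obtain ⟨d', hd', hd'N, hWj⟩ := hW 1 (one_dvd N)
  have hj₁ : ((jF (L := L) N 1 (one_dvd N) : laurentBaseChange L (modularFunctionFieldFull N)) :
      LaurentSeries L) = coeffMap A.subtype (jqModC A) := by
    rw [coe_jF, qExpand_one_apply, coeffMap_jqModC, coeffMap_jqModC]
  have hjN : ((W (jF (L := L) N 1 (one_dvd N)) :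
      laurentBaseChange L (modularFunctionFieldFull N)) : LaurentSeries L) =
      coeffMap A.subtype (qExpand A d' (jqModC A)) := by
    rw [hWj, coe_jF, coeffMap_qExpand, coeffMap_qExpand, coeffMap_jqModC, coeffMap_jqModC]
  -- the relation inside `F`
  have hrel : f * evF A N (jF N 1 (one_dvd N)) G =
      algebraMap L (laurentBaseChange L (modularFunctionFieldFull N)) c *
        ∑ i, evF A N (jF N 1 (one_dvd N)) (H i) *
          (⟨_, castL_mem N (hy i)⟩ : laurentBaseChange L (modularFunctionFieldFull N)) := by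
    apply Subtype.ext
    show (f : LaurentSeries L) * ((evF A N (jF N 1 (one_dvd N)) G :
      laurentBaseChange L (modularFunctionFieldFull N)) : LaurentSeries L) =
      algebraMap L (LaurentSeries L) c * ((∑ i, evF A N (jF N 1 (one_dvd N)) (H i) *
          (⟨_, castL_mem N (hy i)⟩ : laurentBaseChange L (modularFunctionFieldFull N)) :
        laurentBaseChange L (modularFunctionFieldFull N)) : LaurentSeries L)
    rw [AddSubmonoidClass.coe_finsetSum, algebraMap_eq_C]
    show (f : LaurentSeries L) * ((evF A N (jF N 1 (one_dvd N)) G :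
      laurentBaseChange L (modularFunctionFieldFull N)) : LaurentSeries L) =
      HahnSeries.C c * ∑ i, ((evF A N (jF N 1 (one_dvd N)) (H i) :
        laurentBaseChange L (modularFunctionFieldFull N)) : LaurentSeries L) *
          coeffMap (Int.castRingHom L) (y i)
    rw [coe_evF hj₁ G]
    have h2 : ∀ i, ((evF A N (jF N 1 (one_dvd N)) (H i) :
        laurentBaseChange L (modularFunctionFieldFull N)) : LaurentSeries L) =
        coeffMap A.subtype (evJ (H i)) := fun i => coe_evF hj₁ (H i)
    simp only [h2]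
    rw [show G.eval₂ (HahnSeries.C (Γ := ℤ)) (jqModC A) = evJ G from rfl, heq, map_sum]
    simp only [map_mul, incl_castA]
  have hrelW := congrArg W hrel
  rw [map_mul, map_mul, map_sum, AlgEquiv.commutes, map_evF] at hrelW
  simp only [map_mul, map_evF] at hrelW
  have hex : ∀ i, ∃ y' ∈ Subring.closure (intDivisorExpansions N),
      ((W (⟨_, castL_mem N (hy i)⟩ : laurentBaseChange L (modularFunctionFieldFull N)) :
        laurentBaseChange L (modularFunctionFieldFull N)) : LaurentSeries L) =
        coeffMap (Int.castRingHom L) y' := fun i =>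
    exists_closure_of_fricke W hW (hy i) _ rfl
  choose y' hy' hWy using hex
  -- the relation for `W f` in series
  have hser : ((W f : laurentBaseChange L (modularFunctionFieldFull N)) : LaurentSeries L) *
      coeffMap A.subtype (G.eval₂ (HahnSeries.C (Γ := ℤ)) (qExpand A d' (jqModC A))) =
      HahnSeries.C c * coeffMap A.subtype
        (∑ i, (H i).eval₂ (HahnSeries.C (Γ := ℤ)) (qExpand A d' (jqModC A)) *
          coeffMap (Int.castRingHom A) (y' i)) := by
    have h3 : ((W f : laurentBaseChange L (modularFunctionFieldFull N)) : LaurentSeries L) *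
        ((evF A N (W (jF N 1 (one_dvd N))) G :
          laurentBaseChange L (modularFunctionFieldFull N)) : LaurentSeries L) =
        algebraMap L (LaurentSeries L) c * ((∑ i, evF A N (W (jF N 1 (one_dvd N))) (H i) *
          W (⟨_, castL_mem N (hy i)⟩ : laurentBaseChange L (modularFunctionFieldFull N)) :
        laurentBaseChange L (modularFunctionFieldFull N)) : LaurentSeries L) :=
      congrArg Subtype.val hrelW
    rw [AddSubmonoidClass.coe_finsetSum, algebraMap_eq_C] at h3
    rw [map_sum]
    simp only [map_mul, incl_castA]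
    rw [← coe_evF hjN G]
    have h2 : ∀ i, coeffMap A.subtype
        ((H i).eval₂ (HahnSeries.C (Γ := ℤ)) (qExpand A d' (jqModC A))) =
        ((evF A N (W (jF N 1 (one_dvd N))) (H i) :
        laurentBaseChange L (modularFunctionFieldFull N)) : LaurentSeries L) :=
      fun i => (coe_evF hjN (H i)).symm
    simp only [h2, ← hWy]
    exact h3
  -- Gauss unit
  have hJN : IsGI A N (qExpand A d' (jqModC A)) := by
    unfold IsGI
    rw [← hjN]
    exact (W (jF N 1 (one_dvd N))).2
  have hord : (coeffMap π (qExpand A d' (jqModC A))).order ≠ 0 := by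
    rw [coeffMap_qExpand, coeffMap_jqModC]
    have h4 : (qExpand k d' (jqModC k)).coeff ((d' : ℤ) * (-1)) ≠ 0 := by
      rw [qExpand_coeff_mul, coeff_jqModC_neg_one]
      exact one_ne_zero
    have h5 := HahnSeries.order_le_of_coeff_ne_zero h4
    have h6 : (0 : ℤ) < (d' : ℤ) := by
      have := NeZero.ne d'
      omega
    intro h7
    rw [h7] at h5
    linarith
  have hinv := inv_eval_mem_gaussSet (π := π) hJN hord G hG
  have hne : coeffMap A.subtype (G.eval₂ (HahnSeries.C (Γ := ℤ)) (qExpand A d' (jqModC A))) ≠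
      0 := by
    intro h0
    rw [← coe_evF hjN G, ← map_evF] at h0
    have h8 : W (evF A N (jF N 1 (one_dvd N)) G) = 0 := Subtype.ext h0
    have h9 : evF A N (jF (L := L) N 1 (one_dvd N)) G = 0 := by
      rwa [map_eq_zero_iff W W.injective] at h8
    have h10 := congrArg Subtype.val h9
    rw [coe_evF hj₁ G] at h10
    have h11 : evJ G = 0 := incl_injective A (by rw [map_zero]; exact h10)
    have h12 : evJ (G.map π) = 0 := by rw [← coeffMap_evJ, h11, map_zero]
    exact hG ((evJ_eq_zero_iff k).mp h12)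
  have hU₁' : IsGI A N (∑ i, (H i).eval₂ (HahnSeries.C (Γ := ℤ)) (qExpand A d' (jqModC A)) *
      coeffMap (Int.castRingHom A) (y' i)) := by
    unfold IsGI
    rw [map_sum]
    refine sum_mem fun i _ => ?_
    rw [map_mul]
    refine mul_mem ?_ (isGI_castA (hy' i))
    rw [← coe_evF hjN (H i)]
    exact (evF A N (W (jF N 1 (one_dvd N))) (H i)).2
  have hfin : ((W f : laurentBaseChange L (modularFunctionFieldFull N)) : LaurentSeries L) =
      HahnSeries.C c * coeffMap A.subtype
        (∑ i, (H i).eval₂ (HahnSeries.C (Γ := ℤ)) (qExpand A d' (jqModC A)) *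
          coeffMap (Int.castRingHom A) (y' i)) *
      (coeffMap A.subtype (G.eval₂ (HahnSeries.C (Γ := ℤ)) (qExpand A d' (jqModC A))))⁻¹ := by
    rw [← hser, mul_assoc, mul_inv_cancel₀ hne, mul_one]
  rw [hfin]
  exact mul_mem_gaussSet (mul_mem_gaussSet (C_mem_gaussSet ⟨c, hcA⟩) (incl_mem_gaussSet hU₁'))
    hinv

end Main

section Concrete

/-- A nonzero element is a non-unit of a valuation subring iff its inverse is not in it. -/
theorem mem_nonunits_iff_inv_not_mem {K : Type*} [Field K] (A : ValuationSubring K) {x : K}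
    (hx : x ≠ 0) : x ∈ A.nonunits ↔ x⁻¹ ∉ A := by
  rw [ValuationSubring.mem_nonunits_iff, ← A.valuation_le_one_iff, map_inv₀, not_le]
  have h0 : A.valuation x ≠ 0 := (Valuation.ne_zero_iff _).mpr hx
  constructor
  · intro h
    exact (one_lt_inv₀ (zero_lt_iff.mpr h0)).mpr h
  · intro h
    exact (one_lt_inv₀ (zero_lt_iff.mpr h0)).mp h

theorem liesOverPrime_comap (P : ValuationSubring (AlgebraicClosure ℚ))
    (E : IntermediateField ℚ (AlgebraicClosure ℚ)) {q : ℕ} (hq : q.Prime)
    (hP : P.LiesOverPrime q) :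
    (P.comap (algebraMap E (AlgebraicClosure ℚ))).LiesOverPrime q := by
  have hq0 : (q : AlgebraicClosure ℚ) ≠ 0 := by exact_mod_cast hq.ne_zero
  have hq0' : (q : E) ≠ 0 := by exact_mod_cast hq.ne_zero
  have h1 : (q : AlgebraicClosure ℚ) ∈ P.nonunits := hP
  rw [mem_nonunits_iff_inv_not_mem P hq0] at h1
  show (q : E) ∈ (P.comap (algebraMap E (AlgebraicClosure ℚ))).nonunits
  rw [mem_nonunits_iff_inv_not_mem _ hq0']
  intro h2
  apply h1
  have h3 : algebraMap E (AlgebraicClosure ℚ) ((q : E)⁻¹) ∈ P := h2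
  rwa [map_inv₀, map_natCast] at h3

/-- **L7, concrete core** (statement of `Mod.FrickeStableStatement` with `IsVinf`, `IsFricke`,
`jE` unfolded; `Mod/Spec.lean` is not imported). -/
theorem fricke_stable_core (P : ValuationSubring (AlgebraicClosure ℚ))
    (E : IntermediateField ℚ (AlgebraicClosure ℚ)) (M q : ℕ) [NeZero M]
    (hq : q.Prime) (hqM : ¬ q ∣ M) (hP : P.LiesOverPrime q)
    (V : ValuationSubring (laurentBaseChange E (modularFunctionFieldFull M)))
    (W : laurentBaseChange E (modularFunctionFieldFull M) ≃ₐ[E]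
      laurentBaseChange E (modularFunctionFieldFull M))
    (hV : ∀ f : laurentBaseChange E (modularFunctionFieldFull M), f ∈ V ↔
      H708.IsGaussInt (P.comap (algebraMap E (AlgebraicClosure ℚ))) (modularFunctionFieldFull M)
        (f : LaurentSeries E))
    (hW : ∀ (d d' : ℕ) [NeZero d] [NeZero d'] (hd : d ∣ M) (hd' : d' ∣ M), d * d' = M →
      W (jF M d hd) = jF M d' hd') :
    ∀ f ∈ V, W f ∈ V := by
  intro f hf
  have : Fact q.Prime := ⟨hq⟩
  have : CharP (IsLocalRing.ResidueField (P.comap (algebraMap E (AlgebraicClosure ℚ)))) q :=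
    charP_residue _ (liesOverPrime_comap P E hq hP)
  have core : CoreData M
      (IsLocalRing.ResidueField (P.comap (algebraMap E (AlgebraicClosure ℚ)))) :=
    coreData_of_charP M q hqM _
  have hπ : ∀ a : (P.comap (algebraMap E (AlgebraicClosure ℚ))), ¬ IsUnit a →
      IsLocalRing.residue _ a = 0 := by
    intro a ha
    rw [IsLocalRing.residue_eq_zero_iff, IsLocalRing.mem_maximalIdeal, mem_nonunits_iff]
    exact ha
  have hW' : ∀ (d : ℕ) [NeZero d] (hd : d ∣ M), ∃ (d' : ℕ) (_ : NeZero d') (hd' : d' ∣ M),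
      W (jF M d hd) = jF M d' hd' := by
    intro d _ hd
    have hd' : M / d ∣ M := Nat.div_dvd_of_dvd hd
    have hne : NeZero (M / d) := by
      refine ⟨fun h0 => ?_⟩
      have h1 := Nat.mul_div_cancel' hd
      rw [h0, mul_zero] at h1
      exact NeZero.ne M h1.symm
    exact ⟨M / d, hne, hd', hW d (M / d) hd hd' (Nat.mul_div_cancel' hd)⟩
  have hfG : (f : LaurentSeries E) ∈
      gaussSet (P.comap (algebraMap E (AlgebraicClosure ℚ))) (IsLocalRing.residue _) M := by
    obtain ⟨U₁, U₂, hU₂k, hU₂F, heq⟩ := (hV f).mp hf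
    refine ⟨f.2, U₁, U₂, ?_, hU₂F, hU₂k, heq⟩
    unfold IsGI
    rw [← heq]
    exact mul_mem f.2 hU₂F
  have hWG := fricke_stable_generic core hπ W hW' f hfG
  obtain ⟨-, U₁, U₂, -, h₂, hk, heq⟩ := hWG
  exact (hV (W f)).mpr ⟨U₁, U₂, hk, h₂, heq⟩

end Concrete

end Fermat.Agent.A2.Mod.H516
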