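import Fermat.Agent.A2.Mod.Spec
import Fermat.Agent.A2.Mod.H516.L7Core

/-!
# A2 / MOD leaf L7 (helper516): `FrickeStableStatement`, VERBATIM

`frickeStable : Mod.FrickeStableStatement P E M q w` — at level `M` (`q ∤ M`) the Fricke involution
preserves the Gauss valuation ring `V∞`.  Proof in `L7Core.lean` (S28 `CoreData`, no uniqueness
theorem for extensions of valuations, no hypotheses L1–L3).
-/

set_option autoImplicit false
set_option synthInstance.maxHeartbeats 400000
set_option maxHeartbeats 1600000

noncomputable section

namespace Fermat.Agent.A2.Mod.H516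

open Fermat.Agent.A2.Mod

/-- **L7.** -/
theorem frickeStable (P : ValuationSubring Qb) (E : IntermediateField ℚ Qb) (M q : ℕ)
    [NeZero M] [NeZero q] (w : RE P E) : FrickeStableStatement P E M q w := by
  intro hS V W hV hW
  exact fricke_stable_core P E M q hS.q_prime hS.q_not_dvd hS.lies_over V W hV
    (fun d d' _ _ hd hd' h => hW.1 d d' hd hd' h)

end Fermat.Agent.A2.Mod.H516
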